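/-
P-MW block E, row 910 (helper98): **MW-E-HOL-DIV** `HolDivisorStatement`: every effective
divisor away from `P` is the divisor of a nonzero ideal of the holomorphy ring `IntRing K t`,
and the minima are attained (Riemann-Roch).
-/
import Fermat.Agent.H23.MWE.Interfaces
import Fermat.Agent.H58.RR.CharZero
import Fermat.Agent.H58.RR.NonSpecial
import Fermat.Agent.H68.PoleDict

set_option autoImplicit false
set_option linter.style.haveILetI false
set_option linter.unusedSectionVars false
set_option linter.unusedVariables false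

noncomputable section

open AlgebraicCurve IntermediateField

namespace Fermat.Agent.H98.MWE

open Fermat.Agent.H23.MWE Fermat.Agent.H58

section generic

variable {K F : Type} [Field K] [IsAlgClosed K] [CharZero K] [Field F] [Algebra K F] {t : F}
  {P : Place K F}

/-- The elements of `F` integral over `K[t]` are the functions regular outside `P`. -/
theorem isIntegral_iff_regular (hSP : SinglePole K t P) (f : F) :
    IsIntegral (Algebra.adjoin K ({t} : Set F)) f ↔ ∀ Q : Place K F, Q ≠ P → 0 ≤ Q.ord f := by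
  haveI := hSP.fin
  haveI : CharZero K⟮t⟯ := charZero_of_injective_algebraMap (algebraMap K K⟮t⟯).injective
  have hsep : Algebra.IsSeparable K⟮t⟯ F := inferInstance
  rw [Fermat.Agent.H68.pd_isIntegral_iff t hSP.fin hsep f]
  constructor
  · intro h Q hQ
    exact h Q (hSP.reg Q hQ)
  · intro h Q hQ
    apply h Q
    rintro rfl
    have := hSP.pole
    omega

theorem ord_nonneg_of_intRing (hSP : SinglePole K t P) (h : IntRing K t) {Q : Place K F}
    (hQ : Q ≠ P) : 0 ≤ Q.ord (h : F) :=
  (isIntegral_iff_regular hSP (h : F)).1 h.2 Q hQ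

/-- The ideal of `IntRing K t` cut out by the divisor `D`. -/
def divIdeal (hSP : SinglePole K t P) (D : Divisor K F) (hD : 0 ≤ D) : Ideal (IntRing K t) where
  carrier := {h | h = 0 ∨ ∀ Q : Place K F, Q ≠ P → D Q ≤ Q.ord (h : F)}
  zero_mem' := Or.inl rfl
  add_mem' := by
    rintro a b ha hb
    by_cases hab : a + b = 0
    · exact Or.inl hab
    right
    intro Q hQ
    have hab' : (a : F) + (b : F) ≠ 0 := fun h0 => hab (Subtype.ext h0)
    refine Fermat.Agent.H23.ord_add_ge Q hab' (D Q) ?_ ?_
    · rcases ha with rfl | ha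
      · exact Or.inl rfl
      · exact Or.inr (ha Q hQ)
    · rcases hb with rfl | hb
      · exact Or.inl rfl
      · exact Or.inr (hb Q hQ)
  smul_mem' := by
    rintro r a ha
    by_cases hra : r * a = 0
    · exact Or.inl hra
    right
    intro Q hQ
    have hr0 : (r : F) ≠ 0 := fun h0 => hra (by
      have : r = 0 := Subtype.ext h0
      rw [this, zero_mul])
    have ha0 : (a : F) ≠ 0 := fun h0 => hra (by
      have : a = 0 := Subtype.ext h0
      rw [this, mul_zero])
    have ha' : D Q ≤ Q.ord (a : F) := by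
      rcases ha with rfl | ha
      · exact absurd rfl ha0
      · exact ha Q hQ
    have hr' := ord_nonneg_of_intRing hSP r hQ
    show D Q ≤ Q.ord ((r : F) * (a : F))
    rw [Q.ord_mul hr0 ha0]
    omega

theorem mem_divIdeal (hSP : SinglePole K t P) (D : Divisor K F) (hD : 0 ≤ D)
    (h : IntRing K t) :
    h ∈ divIdeal hSP D hD ↔ h = 0 ∨ ∀ Q : Place K F, Q ≠ P → D Q ≤ Q.ord (h : F) := Iff.rfl

/-- Riemann-Roch: a function regular outside `P` with order exactly `D Q` at `Q` and order
`≥ D Q'` at the other places `Q' ≠ P`. -/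
theorem exists_ord_eq (hSP : SinglePole K t P) (D : Divisor K F) (hDP : D P = 0) (hD : 0 ≤ D)
    {Q : Place K F} (hQ : Q ≠ P) :
    ∃ f : F, f ≠ 0 ∧ Q.ord f = D Q ∧ ∀ Q' : Place K F, Q' ≠ P → D Q' ≤ Q'.ord f := by
  have hRR : RRHyp K F := rrHyp_charZero K F t hSP.trans hSP.fin
  obtain ⟨c, hc⟩ := hRR.exists_degree_bound
  set m : ℕ := (c + Divisor.degree D + 1).toNat with hm
  set E' : Divisor K F := (m : ℤ) • Finsupp.single P 1 - D - Finsupp.single Q 1 with hE'
  set E : Divisor K F := E' + Finsupp.single Q 1 with hE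
  have hdegE' : Divisor.degree E' = (m : ℤ) - Divisor.degree D - 1 := by
    rw [hE', map_sub, map_sub, map_zsmul, Divisor.degree_single, Divisor.degree_single,
      hRR.deg_one P, hRR.deg_one Q]
    simp
  have hdegE : Divisor.degree E = (m : ℤ) - Divisor.degree D := by
    rw [hE, map_add, hdegE', Divisor.degree_single, hRR.deg_one Q]
    simp
  have hmge : c + Divisor.degree D + 1 ≤ (m : ℤ) := Int.self_le_toNat _
  have h1E' := hc E' (by rw [hdegE']; omega)
  have h1E := hc E (by rw [hdegE]; omega)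
  have hrE' := (hRR.riemann E').2
  have hrE := (hRR.riemann E).2
  rw [h1E', hdegE'] at hrE'
  rw [h1E, hdegE] at hrE
  haveI := hRR.finite_space E'
  haveI := hRR.finite_space E
  have hnle : ¬ riemannRochSpace E ≤ riemannRochSpace E' := by
    intro hle
    have := Submodule.finrank_mono hle
    have h2 : (Module.finrank K (riemannRochSpace E) : ℤ)
        ≤ Module.finrank K (riemannRochSpace E') := by exact_mod_cast this
    simp only [Nat.cast_zero, sub_zero] at hrE hrE'
    omega
  obtain ⟨f, hfE, hfE'⟩ := SetLike.not_le_iff_exists.1 hnle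
  obtain ⟨hf0, hford⟩ := rr_ord_eq_of_mem_of_notMem hfE hfE'
  have hPQ : (Finsupp.single P (1 : ℤ)) Q = 0 := Finsupp.single_eq_of_ne hQ
  have hE'Q : E' Q = -D Q - 1 := by
    simp only [hE', Finsupp.coe_sub, Finsupp.coe_smul, Pi.sub_apply, Pi.smul_apply, hPQ,
      smul_zero, Finsupp.single_eq_same]
    ring
  refine ⟨f, hf0, ?_, ?_⟩
  · rw [hford, hE'Q]
    ring
  · intro Q' hQ'
    have h3 := ((mem_riemannRochSpace_iff.1 hfE) Q').resolve_left hf0
    have hPQ' : (Finsupp.single P (1 : ℤ)) Q' = 0 := Finsupp.single_eq_of_ne hQ'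
    by_cases hQQ : Q' = Q
    · subst hQQ
      rw [hford, hE'Q]
      omega
    · have hQQ' : (Finsupp.single Q (1 : ℤ)) Q' = 0 := Finsupp.single_eq_of_ne hQQ
      have hEQ' : E Q' = -D Q' := by
        simp only [hE, hE', Finsupp.coe_add, Finsupp.coe_sub, Finsupp.coe_smul, Pi.add_apply,
          Pi.sub_apply, Pi.smul_apply, hPQ', hQQ', smul_zero]
        ring
      rw [hEQ'] at h3
      omega

end generic

/-- **MW-E-HOL-DIV** -/
theorem holDivisor : HolDivisorStatement := by
  intro K F _ _ _ _ _ t P hSP D hDP hD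
  have hRR : RRHyp K F := rrHyp_charZero K F t hSP.trans hSP.fin
  have hmin : ∀ Q : Place K F, Q ≠ P →
      ∃ h ∈ divIdeal hSP D hD, h ≠ 0 ∧ Q.ord (h : F) = D Q := by
    intro Q hQ
    obtain ⟨f, hf0, hfQ, hf⟩ := exists_ord_eq hSP D hDP hD hQ
    have hint : IsIntegral (Algebra.adjoin K ({t} : Set F)) f :=
      (isIntegral_iff_regular hSP f).2 fun Q' hQ' =>
        (Finsupp.le_def.1 hD Q').trans (hf Q' hQ')
    refine ⟨⟨f, hint⟩, Or.inr hf, ?_, hfQ⟩
    intro h0
    exact hf0 (congrArg Subtype.val h0)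
  refine ⟨divIdeal hSP D hD, ?_, mem_divIdeal hSP D hD, hmin⟩
  -- nonzero: there is a place different from `P`
  haveI : Infinite K := IsAlgClosed.instInfinite
  haveI := hRR.infinite_place
  obtain ⟨Q, hQ⟩ := exists_ne P
  obtain ⟨h, hh, hh0, -⟩ := hmin Q hQ
  intro hbot
  rw [hbot, Ideal.mem_bot] at hh
  exact hh0 hh

end Fermat.Agent.H98.MWE

end
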